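import Fermat.Agent.S36.Mod3.Spec
import Fermat.Agent.S36.H153.IncQ
import Fermat.Agent.S36.H153.ChartInfSq

/-!
# S36 / MOD3 — leaves `LeafInc` and `LeafUniq` (helper153)

    leafInc  : LeafTable → LeafChart → LeafQep → LeafVal → LeafSheet → LeafNR → Mod3.LeafInc
    leafUniq : LeafTable → LeafChart → LeafQep → LeafVal → LeafSheet → LeafNR → Mod3.LeafUniq

Only OTHER leaves are hypotheses; everything else is proved here or in `S36/H153/*.lean`:

* incomparability of the two components of level `M q` (`H153.inc₁₂_concrete`, L3 of A2);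
* `VV` is radicial over level `M q` via `α`, `FF` via `β` : from `nr_α₂`, `nr_β₂` (`LeafNR`) and the
  integrality of norms (`normAlong_mem_chart`);
* the cover statement from `Qep3` + multiplicities (`LeafQep`, `LeafVal`);
* cusps: `H153.cusp_single_concrete` (cusps are not nodes at level `M q`, charts at infinity).

`cuspSingle_of_leaves` needs only `LeafTable`, `LeafVal`, `LeafSheet`.
-/

set_option autoImplicit false
set_option linter.style.haveILetI false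
set_option linter.unusedSectionVars false
set_option synthInstance.maxHeartbeats 400000
set_option maxHeartbeats 1600000

noncomputable section

namespace Fermat.Agent.S36.Mod3.H153

open ModularCurve AlgebraicCurve
open Fermat.Agent.S18.H138 (chart)
open Fermat.Agent.S36.Eng
open Fermat.Agent.S36.H153

/-! ## Norms of integral elements -/

section Norm

variable {R E F F' : Type*} [CommRing R] [Field E] [Algebra R E]
  [Field F] [Algebra E F] [Algebra R F] [Field F'] [Algebra E F'] [Algebra R F']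

/-- The norm along `α` of an element integral over `α B'` lies in `B'`, if `B'` is integrally
closed in `F'`. -/
theorem normAlong_mem_chart (α : F' →ₐ[E] F) (B' : Subalgebra R F') (B : Subalgebra R F)
    (closed' : ∀ f : F', IsIntegral B' f → f ∈ B')
    (int_α : ∀ b ∈ B, ∃ p : Polynomial F', p.Monic ∧ (∀ i, p.coeff i ∈ B') ∧
      (p.map (α : F' →+* F)).eval b = 0)
    (b : F) (hb : b ∈ B) : S29.H395.normAlong α b ∈ B' := by
  letI : Algebra F' F := algebraAlong α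
  haveI : IsScalarTower B' F' F := IsScalarTower.of_algebraMap_eq (fun _ => rfl)
  apply closed'
  have hint : IsIntegral B' b := by
    obtain ⟨p, hp, hc, he⟩ := int_α b hb
    have hl : p ∈ Polynomial.lifts B'.val.toRingHom := by
      rw [Polynomial.lifts_iff_coeff_lifts]
      intro n
      exact ⟨⟨p.coeff n, hc n⟩, rfl⟩
    obtain ⟨Q, hQp, -, hQm⟩ := Polynomial.lifts_and_degree_eq_and_monic hl hp
    refine ⟨Q, hQm, ?_⟩
    have h2 : algebraMap B' F = (α : F' →+* F).comp B'.val.toRingHom := rfl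
    rw [h2, ← Polynomial.eval₂_map, hQp, Polynomial.eval₂_eq_eval_map]
    simpa using he
  exact Algebra.isIntegral_norm F' hint

/-- A non-zero element of `V` outside `𝔪_V` is a unit of `V`. -/
theorem unitAt_of_not_mem_nonunits (V : ValuationSubring F) {b : F} (hb : b ∈ V)
    (hn : b ∉ V.nonunits) : UnitAt V b := by
  have hb0 : b ≠ 0 := by
    rintro rfl
    apply hn
    rw [ValuationSubring.mem_nonunits_iff]; simp
  refine ⟨hb0, hb, ?_⟩
  rw [ValuationSubring.mem_nonunits_iff, not_lt] at hn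
  rw [← V.valuation_le_one_iff, map_inv₀]
  exact inv_le_one_of_one_le₀ hn

/-- **Radicial from `NR`** (purely inseparable row of the table). -/
theorem rad_of_nr (α : F' →ₐ[E] F) (B' : Subalgebra R F') (B : Subalgebra R F)
    (V : ValuationSubring F) (q : ℕ) (hq : 0 < q) (hBV : ∀ b ∈ B, b ∈ V)
    (closed' : ∀ f : F', IsIntegral B' f → f ∈ B')
    (int_α : ∀ b ∈ B, ∃ p : Polynomial F', p.Monic ∧ (∀ i, p.coeff i ∈ B') ∧
      (p.map (α : F' →+* F)).eval b = 0)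
    (nr : ∀ y : F, UnitAt V y → α (S29.H395.normAlong α y) - y ^ q ∈ V.nonunits) :
    ∀ b ∈ B, ∃ k : ℕ, 0 < k ∧ ∃ b' ∈ B', b ^ k - (α : F' →+* F) b' ∈ V.nonunits := by
  intro b hb
  by_cases hbn : b ∈ V.nonunits
  · exact ⟨1, one_pos, 0, B'.zero_mem, by simpa using hbn⟩
  · have hu := unitAt_of_not_mem_nonunits V (hBV b hb) hbn
    refine ⟨q, hq, S29.H395.normAlong α b, normAlong_mem_chart α B' B closed' int_α b hb, ?_⟩
    have h := nr b hu
    have e : b ^ q - (α : F' →+* F) (S29.H395.normAlong α b) =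
        -(α (S29.H395.normAlong α b) - b ^ q) := by
      simp
    rw [e]
    rw [ValuationSubring.mem_nonunits_iff] at h ⊢
    rwa [Valuation.map_neg]

end Norm

/-! ## The concrete leaves -/

section Concrete

variable {P : ValuationSubring A2.Qb} {E : IntermediateField ℚ A2.Qb} {M q : ℕ}
  [NeZero M] [NeZero q] [NeZero (M * q)]

theorem setting_of_std {w : A2.RE P E} (h : Std P E M q w) : A2.Mod.Setting P E M q w where
  q_prime := h.q_prime
  q_not_dvd := h.q_not_dvd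
  M_ne_zero := NeZero.ne M
  lies_over := h.lies_over
  dvr := h.unram.1.dvr
  unif := h.unif

theorem x3E_eq_xSq : x3E E M q = xSq E M q := rfl

/-- **The chart-level incidence datum of the finite charts, from the leaves.** -/
theorem chartInc_of_leaves (hTable : LeafTable) (hChart : LeafChart) (hQep : LeafQep)
    (hVal : LeafVal) (hSheet : LeafSheet) (hNR : LeafNR)
    (w : A2.RE P E) (hstd : Std P E M q w)
    (V₁' V₂' : ValuationSubring (A2.Mod.FE E (M * q)))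
    (V₁ V₂ V₃ : ValuationSubring (A2.Mod.FE E (M * q * q)))
    (W' : A2.Mod.FE E (M * q) ≃ₐ[E] A2.Mod.FE E (M * q))
    (W : A2.Mod.FE E (M * q * q) ≃ₐ[E] A2.Mod.FE E (M * q * q))
    (hobj : Objs P E M q V₁' V₂' V₁ V₂ V₃ W' W) :
    ChartInc w (q - 1)
      (A2.Mod.αE E (M * q) q : A2.Mod.FE E (M * q) →+* A2.Mod.FE E (M * q * q))
      (A2.Mod.βE E (M * q) q : A2.Mod.FE E (M * q) →+* A2.Mod.FE E (M * q * q))
      (chart (A2.RE P E) ({A2.Mod.xE E M q} : Set (A2.Mod.FE E (M * q))))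
      (chart (A2.RE P E) ({x3E E M q} : Set (A2.Mod.FE E (M * q * q)))) V₁ V₂ V₃ V₁' V₂' := by
  have T := hTable P E M q w hstd V₁' V₂' V₁ V₂ V₃ W' W hobj
  have C := hChart P E M q w hstd V₁' V₂' V₁ V₂ V₃ W' W hobj
  have Q := hQep P E M q w hstd V₁' V₂' V₁ V₂ V₃ W' W hobj
  have Vl := hVal P E M q w hstd V₁' V₂' V₁ V₂ V₃ W' W hobj
  have Sh := hSheet P E M q w hstd V₁' V₂' V₁ V₂ V₃ W' W hobj
  have NR := hNR P E M q w hstd V₁' V₂' V₁ V₂ V₃ W' W hobj
  have hS := setting_of_std hstd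
  have hq : 0 < q := hstd.q_prime.pos
  obtain ⟨t, ⟨ht0, -, htu⟩, ⟨-, -, hram⟩⟩ := Vl.ram₂
  have hB₁ : ∀ b ∈ chart (A2.RE P E) ({x3E E M q} : Set (A2.Mod.FE E (M * q * q))), b ∈ V₁ :=
    chart_le_valuationSubring V₁ Sh.base₁
      (fun s hs => by rw [Set.mem_singleton_iff.mp hs]; exact Vl.x_unit₁.2.1)
  have hB₃ : ∀ b ∈ chart (A2.RE P E) ({x3E E M q} : Set (A2.Mod.FE E (M * q * q))), b ∈ V₃ :=
    chart_le_valuationSubring V₃ Sh.base₃
      (fun s hs => by rw [Set.mem_singleton_iff.mp hs]; exact Vl.x_unit₃.2.1)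
  have hv := hobj.vzero'
  have h12 := inc₁₂_concrete w hS V₁' W' hobj.vinf' hobj.fricke'
  have h21 := inc₂₁_concrete w hS V₁' W' hobj.vinf' hobj.fricke'
  rw [← hv] at h12 h21
  exact chartInc_of_chart w (q - 1) _ _ (x3E E M q) (A2.Mod.xE E M q) V₁ V₂ V₃ V₁' V₂'
    Sh.base₁ Sh.base₂ Sh.base₃ Vl.x_unit₁.2.1 Vl.x_unit₂.2.1 Vl.x_unit₃.2.1
    C.chart_α C.chart_β C.int_α C.int_β
    T.comap_α₁ T.comap_α₂ T.comap_α₃ T.comap_β₁ T.comap_β₂ T.comap_β₃
    (alpha_algebraMap P E (M * q) q w) (beta_algebraMap P E (M * q) q w)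
    Vl.unif₁.2.1 Vl.unif₃.2.1 Q.qep_f
    Vl.unif₁.2.2 (pow_div_mem_of_ram V₂ _ t (q - 1) ht0 htu hram) Vl.unif₃.2.2
    h12 h21
    (rad_of_nr (A2.Mod.αE E (M * q) q) _ _ V₃ q hq hB₃ (chart_closed _) C.int_α NR.nr_α₂)
    (rad_of_nr (A2.Mod.βE E (M * q) q) _ _ V₁ q hq hB₁ (chart_closed _) C.int_β NR.nr_β₂)

/-- The field `cusp_single` from `LeafTable`, `LeafVal`, `LeafSheet`. -/
theorem cuspSingle_of_leaves (hTable : LeafTable) (hVal : LeafVal) (hSheet : LeafSheet)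
    (w : A2.RE P E) (hstd : Std P E M q w)
    (V₁' V₂' : ValuationSubring (A2.Mod.FE E (M * q)))
    (V₁ V₂ V₃ : ValuationSubring (A2.Mod.FE E (M * q * q)))
    (W' : A2.Mod.FE E (M * q) ≃ₐ[E] A2.Mod.FE E (M * q))
    (W : A2.Mod.FE E (M * q * q) ≃ₐ[E] A2.Mod.FE E (M * q * q))
    (hobj : Objs P E M q V₁' V₂' V₁ V₂ V₃ W' W) :
    ∀ 𝔪 : Ideal (chart (A2.RE P E) ({(x3E E M q)⁻¹} : Set (A2.Mod.FE E (M * q * q)))),
    𝔪.IsMaximal →
    algebraMap (A2.RE P E)
      (chart (A2.RE P E) ({(x3E E M q)⁻¹} : Set (A2.Mod.FE E (M * q * q)))) w ∈ 𝔪 →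
    (⟨(x3E E M q)⁻¹, Fermat.Agent.S18.H138.mem_chart_of_mem rfl⟩ :
      chart (A2.RE P E) ({(x3E E M q)⁻¹} : Set (A2.Mod.FE E (M * q * q)))) ∈ 𝔪 →
    ¬ (Through _ 𝔪 V₁ ∧ Through _ 𝔪 V₂) ∧ ¬ (Through _ 𝔪 V₁ ∧ Through _ 𝔪 V₃) ∧
      ¬ (Through _ 𝔪 V₂ ∧ Through _ 𝔪 V₃) := by
  have T := hTable P E M q w hstd V₁' V₂' V₁ V₂ V₃ W' W hobj
  have Vl := hVal P E M q w hstd V₁' V₂' V₁ V₂ V₃ W' W hobj
  have Sh := hSheet P E M q w hstd V₁' V₂' V₁ V₂ V₃ W' W hobj
  have hS := setting_of_std hstd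
  have hv := hobj.vzero'
  have c3 := T.comap_α₃
  have c5 := T.comap_β₂
  have c6 := T.comap_β₃
  rw [hv] at c3 c5 c6
  exact cusp_single_concrete w hS V₁' W' hobj.vinf' hobj.fricke' (x3E E M q) x3E_eq_xSq
    V₁ V₂ V₃ Sh.base₁ Sh.base₂ Sh.base₃ Vl.x_unit₁.2.2 Vl.x_unit₂.2.2 Vl.x_unit₃.2.2
    (chart_αi P E M q hstd.q_prime) (chart_βi P E M q hstd.q_prime)
    T.comap_α₁ T.comap_α₂ c3 T.comap_β₁ c5 c6

/-- **`Mod3.LeafInc`** from the leaves TABLE, CHART, QEP, VAL, SHEET, NR. -/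
theorem leafInc (hTable : LeafTable) (hChart : LeafChart) (hQep : LeafQep)
    (hVal : LeafVal) (hSheet : LeafSheet) (hNR : LeafNR) : LeafInc := by
  intro P E M q _ _ _ w hstd V₁' V₂' V₁ V₂ V₃ W' W hobj
  have D := chartInc_of_leaves hTable hChart hQep hVal hSheet hNR w hstd V₁' V₂' V₁ V₂ V₃ W' W
    hobj
  exact
    { incidence := fun 𝔪 h𝔪 h => D.incidence 𝔪 h𝔪.isPrime h
      cusp_single := cuspSingle_of_leaves hTable hVal hSheet w hstd V₁' V₂' V₁ V₂ V₃ W' W hobj }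

/-- **`Mod3.LeafUniq`** from the leaves TABLE, CHART, QEP, VAL, SHEET, NR. -/
theorem leafUniq (hTable : LeafTable) (hChart : LeafChart) (hQep : LeafQep)
    (hVal : LeafVal) (hSheet : LeafSheet) (hNR : LeafNR) : LeafUniq := by
  intro P E M q _ _ _ w hstd V₁' V₂' V₁ V₂ V₃ W' W hobj
  have D := chartInc_of_leaves hTable hChart hQep hVal hSheet hNR w hstd V₁' V₂' V₁ V₂ V₃ W' W
    hobj
  exact
    { unique_α := fun _ 𝔪 𝔪' h𝔪 h𝔪' ht h => D.unique_α 𝔪 𝔪' h𝔪 h𝔪' ht h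
      unique_β := fun _ 𝔪 𝔪' h𝔪 h𝔪' ht h => D.unique_β 𝔪 𝔪' h𝔪 h𝔪' ht h }

end Concrete

end Fermat.Agent.S36.Mod3.H153
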